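/-
P-ES / ES-C1-PD (helper93): principal divisors on the function field of `X₀(M)` over `L`.

* `esc_pd_qbar` : unconditional for `L = AlgebraicClosure ℚ` (adapter of the P-GENUS / RR library).
* `esc_pd_of_isFunctionField` : for every algebraically closed field `L` of characteristic zero,
  from `IsFunctionFieldStatement L`.
* `esc_pd_complex_of_degreeC` : for `L = ℂ` from the ES-A statement `DegreeCStatement`.
-/
import Fermat.Agent.H21.EsC.Interfaces
import Fermat.Agent.H58.RR.Modular
import Fermat.Agent.H19.EsAPrincipalDivisorC

set_option autoImplicit false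

namespace Fermat.Agent.H93

open AlgebraicCurve ModularCurve IntermediateField

/-- **C1-PD** from **C1-FF**, for every algebraically closed field of characteristic zero. -/
theorem esc_pd_of_isFunctionField (L : Type) [Field L] [Algebra ℚ L] [IsAlgClosed L] [CharZero L]
    (h : Fermat.Agent.H21.EsC.IsFunctionFieldStatement L) :
    Fermat.Agent.H21.EsC.PrincipalDivisorsStatement L := by
  intro M _
  obtain ⟨x, hx, hfin⟩ := h M
  exact Fermat.Agent.H19.hasPrincipalDivisors_of_finite x hx hfin

/-- **C1-PD** for `L = AlgebraicClosure ℚ`, unconditional. -/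
theorem esc_pd_qbar :
    Fermat.Agent.H21.EsC.PrincipalDivisorsStatement (AlgebraicClosure ℚ) := by
  intro M _
  exact Fermat.Agent.H58.hasPrincipalDivisors_modularFunctionFieldBar M

/-- **C1-PD** for `L = ℂ` from the ES-A statement **[DEG-C]**. -/
theorem esc_pd_complex_of_degreeC
    (h : ∀ (N : ℕ) [NeZero N], Fermat.Agent.H23.EsA.DegreeCStatement N) :
    Fermat.Agent.H21.EsC.PrincipalDivisorsStatement ℂ := by
  intro M _
  exact (Fermat.Agent.H19.principalDivisorC_of_degreeC M (h M)).1

end Fermat.Agent.H93
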